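import Mathlib
import Fermat.Agent.LT.T7.H568.IdeleCoordSpec
import Fermat.Agent.LT.T1.H919.K0Compact

/-!
# Row LT, tower T7, leaf T7.14.6c.4c `HCompactC568` (helper378, OFF-MAIN)

`hCompactC378 K : Fermat.Agent.LT.T7.H568.HCompactC568 K` :
for a support pair `(S, 𝔪)` and `0 < a ≤ b` the set `H ∩ {a ≤ rad ≤ b}` is compact in the
idele group `(𝔸_K)ˣ`.

Proof.  `H ∩ {a ≤ rad ≤ b}` is the preimage under the closed embedding
`y ↦ (y, y⁻¹) : (𝔸_K)ˣ → 𝔸_K × 𝔸_Kᵐᵒᵖ` of the compact set `Z₁ × Z₂`, where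
`Z₁ = {x ∈ box b : a ≤ ‖x_w‖, x_v - 1 ∈ 𝔪 𝒪_v (v ∈ S)}` (closed in the compact box of
helper919) and `Z₂ = box a⁻¹`.

No definition is re-defined: `hSub568`, `radBox568`, `rad568` are those of helper568,
`InCell`, `ordI`, `IsSupp` those of helper62, `idealClosure` that of helper556 and `box919`
that of helper919.
-/

set_option autoImplicit false
set_option linter.unusedSectionVars false
set_option linter.unusedVariables false

open IsDedekindDomain NumberField
open Fermat.Agent.LT.H556 Fermat.Agent.LT.H556.A0 Fermat.Agent.LT.T7 Fermat.Agent.LT.T7.Rigid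
open Fermat.Agent.LT.T7.H568 Fermat.Agent.LT.T1.H919

noncomputable section

namespace Fermat.Agent.LT.T7.H378

variable {K : Type} [Field K] [NumberField K]

/-! ## Local facts -/

/-- The open unit ball of `K_v` is closed. -/
lemma isClosed_lt_one378 (v : HeightOneSpectrum (𝓞 K)) :
    IsClosed {z : v.adicCompletion K | Valued.v z < 1} := by
  have := Valued.isClosed_ball (v.adicCompletion K) (1 : _)
  simpa only [Valuation.restrict_lt_one_iff] using this

/-- If `v ∣ 𝔪` then `𝔪 𝒪_v` lies in the open unit ball. -/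
lemma idealClosure_subset_lt_one378 {𝔪 : Ideal (𝓞 K)} {v : HeightOneSpectrum (𝓞 K)}
    (hv : v.asIdeal ∣ 𝔪) :
    idealClosure 𝔪 v ⊆ {z : v.adicCompletion K | Valued.v z < 1} := by
  refine closure_minimal ?_ (isClosed_lt_one378 v)
  rintro _ ⟨x, hx, rfl⟩
  show Valued.v (algebraMap K (v.adicCompletion K) (algebraMap (𝓞 K) K x)) < 1
  have key : Valued.v (algebraMap K (v.adicCompletion K) (algebraMap (𝓞 K) K x))
      = v.valuation K (algebraMap (𝓞 K) K x) :=
    HeightOneSpectrum.valuedAdicCompletion_eq_valuation' v _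
  rw [key, HeightOneSpectrum.valuation_lt_one_iff_mem]
  exact Ideal.le_of_dvd hv hx

/-- `|1 + u|_v = 1` for `u ∈ 𝔪 𝒪_v`, `v ∣ 𝔪`. -/
lemma valued_one_add378 {𝔪 : Ideal (𝓞 K)} {v : HeightOneSpectrum (𝓞 K)}
    (hv : v.asIdeal ∣ 𝔪) {u : v.adicCompletion K} (hu : u ∈ idealClosure 𝔪 v) :
    Valued.v (1 + u) = 1 :=
  Valuation.map_one_add_of_lt _ (idealClosure_subset_lt_one378 hv hu)

/-- The finite components of an idele and of its inverse are inverse to each other. -/
lemma fin_mul_inv378 (y : (Adl K)ˣ) (v : HeightOneSpectrum (𝓞 K)) :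
    (y : Adl K).2 v * ((y⁻¹ : (Adl K)ˣ) : Adl K).2 v = 1 := by
  have h : (y : Adl K) * ((y⁻¹ : (Adl K)ˣ) : Adl K) = 1 := Units.mul_inv y
  have h2 := congrArg (fun x : Adl K => x.2 v) h
  exact h2

/-- The infinite components of an idele and of its inverse are inverse to each other. -/
lemma inf_mul_inv378 (y : (Adl K)ˣ) (w : InfinitePlace K) :
    (y : Adl K).1 w * ((y⁻¹ : (Adl K)ˣ) : Adl K).1 w = 1 := by
  have h : (y : Adl K) * ((y⁻¹ : (Adl K)ˣ) : Adl K) = 1 := Units.mul_inv y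
  have h2 := congrArg (fun x : Adl K => x.1 w) h
  exact h2

lemma valued_mul_inv378 (y : (Adl K)ˣ) (v : HeightOneSpectrum (𝓞 K)) :
    Valued.v ((y : Adl K).2 v) * Valued.v (((y⁻¹ : (Adl K)ˣ) : Adl K).2 v) = 1 := by
  rw [← map_mul, fin_mul_inv378, map_one]

lemma norm_mul_inv378 (y : (Adl K)ˣ) (w : InfinitePlace K) :
    ‖(y : Adl K).1 w‖ * ‖((y⁻¹ : (Adl K)ˣ) : Adl K).1 w‖ = 1 := by
  rw [← norm_mul, inf_mul_inv378, norm_one]

/-- `ordI v y = 0` iff `|y_v|_v = 1`. -/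
lemma ordI_eq_zero_iff378 (y : (Adl K)ˣ) (v : HeightOneSpectrum (𝓞 K)) :
    ordI v y = 0 ↔ Valued.v ((y : Adl K).2 v) = 1 := by
  have hne : Valued.v ((y : Adl K).2 v) ≠ 0 := by
    intro h0
    have := valued_mul_inv378 y v
    rw [h0, zero_mul] at this
    exact zero_ne_one this
  unfold ordI
  constructor
  · intro h
    have h1 : WithZero.log (Valued.v ((y : Adl K).2 v)) = 0 := by
      have := neg_eq_zero.mp h
      exact this
    have h2 := WithZero.exp_log hne
    rw [h1] at h2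
    rw [← h2]
    rfl
  · intro h
    rw [h, WithZero.log_one, neg_zero]

/-- Both of `x`, `y` have valuation `≤ 1` and `|x| |y| = 1`: then `|x| = 1`. -/
lemma eq_one_of_le_one_of_mul378 {Γ : Type*} [LinearOrderedCommGroupWithZero Γ] {x y : Γ}
    (hx : x ≤ 1) (hy : y ≤ 1) (hxy : x * y = 1) : x = 1 := by
  refine le_antisymm hx ?_
  by_contra hlt
  rw [not_le] at hlt
  have hy0 : y ≠ 0 := by
    intro h0
    rw [h0, mul_zero] at hxy
    exact zero_ne_one hxy
  have : x * y < 1 * 1 := by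
    calc x * y < 1 * y := by
          exact mul_lt_mul_of_pos_right hlt (zero_lt_iff.mpr hy0)
      _ ≤ 1 * 1 := by
          rw [one_mul, one_mul]; exact hy
  rw [hxy, one_mul] at this
  exact lt_irrefl _ this

/-! ## The compact model -/

/-- The compact set `Z₁`. -/
def zOne378 (S : Finset (HeightOneSpectrum (𝓞 K))) (𝔪 : Ideal (𝓞 K)) (a b : ℝ) :
    Set (Adl K) :=
  box919 K b ∩ ({x : Adl K | ∀ w : InfinitePlace K, a ≤ ‖x.1 w‖} ∩
    {x : Adl K | ∀ v ∈ S, x.2 v - 1 ∈ idealClosure 𝔪 v})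

lemma isCompact_zOne378 (S : Finset (HeightOneSpectrum (𝓞 K))) (𝔪 : Ideal (𝓞 K)) (a b : ℝ) :
    IsCompact (zOne378 S 𝔪 a b) := by
  refine (isCompact_box919 b).inter_right (IsClosed.inter ?_ ?_)
  · have e : {x : Adl K | ∀ w : InfinitePlace K, a ≤ ‖x.1 w‖}
        = ⋂ w : InfinitePlace K, {x : Adl K | a ≤ ‖x.1 w‖} := by
      ext x
      simp only [Set.mem_ofPred_eq, Set.mem_iInter]
    rw [e]
    exact isClosed_iInter fun w =>
      isClosed_le continuous_const (continuous_norm.comp (continuous_projInf919 w))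
  · have e : {x : Adl K | ∀ v ∈ S, x.2 v - 1 ∈ idealClosure 𝔪 v}
        = ⋂ v ∈ S, (fun x : Adl K => x.2 v - 1) ⁻¹' idealClosure 𝔪 v := by
      ext x
      simp only [Set.mem_ofPred_eq, Set.mem_iInter, Set.mem_preimage]
    rw [e]
    refine isClosed_biInter fun v _ => ?_
    have hc : Continuous (fun x : Adl K => x.2 v - 1) :=
      (continuous_projFin919 v).sub continuous_const
    exact (isClosed_closure (s := _)).preimage hc

lemma isCompact_zTwo378 (R : ℝ) :
    IsCompact (MulOpposite.unop ⁻¹' (box919 K R) : Set (Adl K)ᵐᵒᵖ) := by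
  have := (isCompact_box919 (K := K) R).image (MulOpposite.continuous_op)
  convert this using 1
  ext x
  simp only [Set.mem_preimage, Set.mem_image]
  constructor
  · intro hx
    exact ⟨x.unop, hx, MulOpposite.op_unop x⟩
  · rintro ⟨y, hy, rfl⟩
    exact hy

/-- `H ∩ {a ≤ rad ≤ b}` is the preimage of `Z₁ × Z₂`. -/
lemma hSub_inter_radBox_eq378 {S : Finset (HeightOneSpectrum (𝓞 K))} {𝔪 : Ideal (𝓞 K)}
    (hS : IsSupp S 𝔪) {a b : ℝ} (ha : 0 < a) :
    hSub568 S 𝔪 ∩ radBox568 (K := K) a b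
      = (Units.embedProduct (Adl K)) ⁻¹'
          ((zOne378 S 𝔪 a b) ×ˢ (MulOpposite.unop ⁻¹' (box919 K a⁻¹))) := by
  ext y
  constructor
  · rintro ⟨⟨hcell, hord⟩, hrad⟩
    -- all finite components are units
    have hval : ∀ v : HeightOneSpectrum (𝓞 K), Valued.v ((y : Adl K).2 v) = 1 := by
      intro v
      by_cases hv : v ∈ S
      · obtain ⟨u, hu, hyu⟩ := hcell v hv
        have h1 : ((1 : (Adl K)ˣ) : Adl K).2 v = 1 := rfl
        rw [hyu, h1, one_mul]
        exact valued_one_add378 ((hS.2 v).mpr hv) hu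
      · exact (ordI_eq_zero_iff378 y v).mp (hord v hv)
    have hvalinv : ∀ v : HeightOneSpectrum (𝓞 K),
        Valued.v (((y⁻¹ : (Adl K)ˣ) : Adl K).2 v) = 1 := by
      intro v
      have := valued_mul_inv378 y v
      rw [hval v, one_mul] at this
      exact this
    refine ⟨⟨⟨fun w => (hrad w).2, fun v => ?_⟩, fun w => (hrad w).1, fun v hv => ?_⟩,
      fun w => ?_, fun v => ?_⟩
    · show Valued.v ((y : Adl K).2 v) ≤ 1
      exact (hval v).le
    · obtain ⟨u, hu, hyu⟩ := hcell v hv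
      have h1 : ((1 : (Adl K)ˣ) : Adl K).2 v = 1 := rfl
      have : (y : Adl K).2 v - 1 = u := by
        rw [hyu, h1, one_mul]; ring
      show (y : Adl K).2 v - 1 ∈ idealClosure 𝔪 v
      rw [this]
      exact hu
    · show ‖((y⁻¹ : (Adl K)ˣ) : Adl K).1 w‖ ≤ a⁻¹
      have hpos : 0 < ‖(y : Adl K).1 w‖ := lt_of_lt_of_le ha (hrad w).1
      have h := norm_mul_inv378 y w
      have e : ‖((y⁻¹ : (Adl K)ˣ) : Adl K).1 w‖ = ‖(y : Adl K).1 w‖⁻¹ :=
        eq_inv_of_mul_eq_one_right h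
      rw [e]
      exact inv_anti₀ ha (hrad w).1
    · show Valued.v (((y⁻¹ : (Adl K)ˣ) : Adl K).2 v) ≤ 1
      exact (hvalinv v).le
  · rintro ⟨⟨⟨hb, hint⟩, hA, hI⟩, hinvb, hinvint⟩
    refine ⟨⟨fun v hv => ?_, fun v hv => ?_⟩, fun w => ⟨hA w, hb w⟩⟩
    · refine ⟨(y : Adl K).2 v - 1, hI v hv, ?_⟩
      have h1 : ((1 : (Adl K)ˣ) : Adl K).2 v = 1 := rfl
      rw [h1, one_mul]; ring
    · rw [ordI_eq_zero_iff378]
      have h1 : Valued.v ((y : Adl K).2 v) ≤ 1 := hint v
      have h2 : Valued.v (((y⁻¹ : (Adl K)ˣ) : Adl K).2 v) ≤ 1 := hinvint v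
      exact eq_one_of_le_one_of_mul378 h1 h2 (valued_mul_inv378 y v)

/-! ## The leaf -/

/-- **T7.14.6c.4c H-COMPACT.**  `H ∩ {a ≤ rad ≤ b}` is compact in the idele group. -/
theorem hCompactC378 (K : Type) [Field K] [NumberField K] :
    Fermat.Agent.LT.T7.H568.HCompactC568 K := by
  intro S 𝔪 hS a b ha hab
  have : T2Space (Adl K) := Fermat.Agent.LT.H11.LC.t2Space_adeleRing_h11 K
  rw [hSub_inter_radBox_eq378 hS ha]
  exact Units.isClosedEmbedding_embedProduct.isCompact_preimage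
    ((isCompact_zOne378 S 𝔪 a b).prod (isCompact_zTwo378 a⁻¹))

end Fermat.Agent.LT.T7.H378

end
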